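/-
S41 / [PD-UNIMOD] (helper51): combinatorial Poincare duality for the coarse Farey complex of a
finite `PSL2(Z)`-set.

`P` = darts (oriented Farey edges modulo `Γ`), `s` = edge reversal (`s² = 1`), `t` = next edge of the
triangle on the left (`t³ = 1`); fixed points of `s`, `t` (elliptic points) are allowed.
`rot x = s (t (t x))` = rotation about the tail; its orbits are the cusps.

* `Z1 k s t` : 1-cocycles (`f ∘ s = -f`, sum over every triangle `= 0`, `f = 0` on `t`-fixed darts);
* `B1 k s t` : coboundaries `x ↦ φ (s x) - φ x` of `rot`-invariant `φ` (functions on the cusps);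
* `form t w f g = ∑ x, w x * (f x * g (t x) - f (t x) * g x)` for a weight `w` with total weight `1`
  on every free `t`-orbit (on cocycles: `∑ over triangles [f(x) g(xt) - f(xt) g(x)]`, i.e. twice the
  cup product evaluated on the fundamental class).

Main result `mem_B1_iff_forall_form_eq_zero`: over a field with `2 ≠ 0` the radical of `form` on `Z1`
is exactly `B1`.  No freeness, no transitivity, every odd characteristic (3 included).
-/
import Mathlib

set_option autoImplicit false
set_option linter.unusedSectionVars false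
set_option linter.unusedVariables false

namespace Fermat.Agent.S41.PDUnimod51

open Finset

variable {P : Type*} [Fintype P] [DecidableEq P] {k : Type*} [Field k]

section Defs

variable (k) (s t : Equiv.Perm P)

/-- 1-cocycles of the coarse Farey complex. -/
def Z1 : Submodule k (P → k) where
  carrier := {f | (∀ x, f (s x) = - f x) ∧ (∀ x, f x + f (t x) + f (t (t x)) = 0) ∧
    (∀ x, t x = x → f x = 0)}
  zero_mem' := by simp
  add_mem' := by
    rintro f g ⟨hf1, hf2, hf3⟩ ⟨hg1, hg2, hg3⟩
    refine ⟨fun x => ?_, fun x => ?_, fun x hx => ?_⟩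
    · simp only [Pi.add_apply, hf1 x, hg1 x]; ring
    · simp only [Pi.add_apply]; linear_combination hf2 x + hg2 x
    · simp only [Pi.add_apply, hf3 x hx, hg3 x hx, add_zero]
  smul_mem' := by
    rintro c f ⟨hf1, hf2, hf3⟩
    refine ⟨fun x => ?_, fun x => ?_, fun x hx => ?_⟩
    · simp only [Pi.smul_apply, smul_eq_mul, hf1 x]; ring
    · simp only [Pi.smul_apply, smul_eq_mul]; linear_combination c * hf2 x
    · simp only [Pi.smul_apply, smul_eq_mul, hf3 x hx, mul_zero]

/-- coboundaries of functions on the cusps (`rot`-invariant functions on darts). -/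
def B1 : Submodule k (P → k) where
  carrier := {f | ∃ φ : P → k, (∀ x, φ (s (t (t x))) = φ x) ∧ ∀ x, f x = φ (s x) - φ x}
  zero_mem' := ⟨0, by simp, by simp⟩
  add_mem' := by
    rintro f g ⟨φ, hφ, hf⟩ ⟨ψ, hψ, hg⟩
    refine ⟨φ + ψ, fun x => ?_, fun x => ?_⟩
    · simp only [Pi.add_apply, hφ x, hψ x]
    · simp only [Pi.add_apply, hf x, hg x]; ring
  smul_mem' := by
    rintro c f ⟨φ, hφ, hf⟩
    refine ⟨c • φ, fun x => ?_, fun x => ?_⟩
    · simp only [Pi.smul_apply, hφ x]
    · simp only [Pi.smul_apply, smul_eq_mul, hf x]; ring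

variable {k s t}

theorem mem_Z1_iff {f : P → k} : f ∈ Z1 k s t ↔ (∀ x, f (s x) = - f x) ∧
    (∀ x, f x + f (t x) + f (t (t x)) = 0) ∧ (∀ x, t x = x → f x = 0) := Iff.rfl

theorem mem_B1_iff {f : P → k} : f ∈ B1 k s t ↔
    ∃ φ : P → k, (∀ x, φ (s (t (t x))) = φ x) ∧ ∀ x, f x = φ (s x) - φ x := Iff.rfl

end Defs

/-- the alternating form (twice the cup product on cocycles). -/
def form (t : Equiv.Perm P) (w f g : P → k) : k :=
  ∑ x, w x * (f x * g (t x) - f (t x) * g x)


section Lagrange

variable (s t : Equiv.Perm P)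

/-- the linear constraints cutting out `Z1` inside `P → k`. -/
def constr : (P → k) →ₗ[k] (P ⊕ (P ⊕ P) → k) where
  toFun g := Sum.elim (fun x => g x + g (s x))
    (Sum.elim (fun x => g x + g (t x) + g (t (t x))) (fun x => if t x = x then g x else 0))
  map_add' f g := by
    funext z
    rcases z with x | x | x
    · simp only [Sum.elim_inl, Pi.add_apply]; ring
    · simp only [Sum.elim_inr, Sum.elim_inl, Pi.add_apply]; ring
    · simp only [Sum.elim_inr, Pi.add_apply]; split_ifs <;> simp
  map_smul' c g := by
    funext z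
    rcases z with x | x | x
    · simp only [Sum.elim_inl, Pi.smul_apply, smul_eq_mul, RingHom.id_apply]; ring
    · simp only [Sum.elim_inr, Sum.elim_inl, Pi.smul_apply, smul_eq_mul, RingHom.id_apply]; ring
    · simp only [Sum.elim_inr, Pi.smul_apply, smul_eq_mul, RingHom.id_apply]; split_ifs <;> simp

theorem constr_inl (g : P → k) (x : P) : constr s t g (Sum.inl x) = g x + g (s x) := rfl

theorem constr_inr_inl (g : P → k) (x : P) :
    constr s t g (Sum.inr (Sum.inl x)) = g x + g (t x) + g (t (t x)) := rfl

theorem constr_inr_inr (g : P → k) (x : P) :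
    constr s t g (Sum.inr (Sum.inr x)) = if t x = x then g x else 0 := rfl

theorem ker_constr : LinearMap.ker (constr (k := k) s t) = Z1 k s t := by
  ext g
  simp only [LinearMap.mem_ker, mem_Z1_iff]
  constructor
  · intro h
    refine ⟨fun x => ?_, fun x => ?_, fun x hx => ?_⟩
    · have := congrFun h (Sum.inl x)
      simp only [constr, LinearMap.coe_mk, AddHom.coe_mk, Sum.elim_inl, Pi.zero_apply] at this
      linear_combination this
    · have := congrFun h (Sum.inr (Sum.inl x))
      simpa only [constr, LinearMap.coe_mk, AddHom.coe_mk, Sum.elim_inr, Sum.elim_inl,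
        Pi.zero_apply] using this
    · have := congrFun h (Sum.inr (Sum.inr x))
      simpa only [constr, LinearMap.coe_mk, AddHom.coe_mk, Sum.elim_inr, Pi.zero_apply, hx,
        if_true] using this
  · rintro ⟨h1, h2, h3⟩
    funext z
    rcases z with x | x | x
    · simp only [constr, LinearMap.coe_mk, AddHom.coe_mk, Sum.elim_inl, Pi.zero_apply, h1 x]; ring
    · simp only [constr, LinearMap.coe_mk, AddHom.coe_mk, Sum.elim_inr, Sum.elim_inl,
        Pi.zero_apply, h2 x]
    · simp only [constr, LinearMap.coe_mk, AddHom.coe_mk, Sum.elim_inr, Pi.zero_apply]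
      split_ifs with hx
      · exact h3 x hx
      · rfl

/-- `form t w f ·` as a linear functional. -/
def formL (w f : P → k) : (P → k) →ₗ[k] k where
  toFun g := form t w f g
  map_add' g h := by
    simp only [form, Pi.add_apply, ← Finset.sum_add_distrib]
    exact Finset.sum_congr rfl fun x _ => by ring
  map_smul' c g := by
    simp only [form, Pi.smul_apply, smul_eq_mul, RingHom.id_apply, Finset.mul_sum]
    exact Finset.sum_congr rfl fun x _ => by ring

theorem sum_single_comp (e : Equiv.Perm P) (y : P) (a : P → k) :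
    ∑ x, (Pi.single y (1 : k) : P → k) (e x) * a x = a (e.symm y) := by
  rw [← Equiv.sum_comp e.symm]
  simp [Pi.single_apply]

theorem formL_single (w f : P → k) (y : P) :
    formL t w f (Pi.single y 1) = w (t.symm y) * f (t.symm y) - w y * f (t y) := by
  show form t w f (Pi.single y 1) = _
  unfold form
  have h1 : ∑ x, w x * (f x * (Pi.single y (1 : k) : P → k) (t x)) = w (t.symm y) * f (t.symm y) := by
    have := sum_single_comp t y (fun x => w x * f x)
    rw [← this]
    exact Finset.sum_congr rfl fun x _ => by ring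
  have h2 : ∑ x, w x * (f (t x) * (Pi.single y (1 : k) : P → k) x) = w y * f (t y) := by
    have := sum_single_comp (Equiv.refl P) y (fun x => w x * f (t x))
    simp only [Equiv.refl_apply, Equiv.refl_symm] at this
    rw [← this]
    exact Finset.sum_congr rfl fun x _ => by ring
  rw [← h1, ← h2, ← Finset.sum_sub_distrib]
  exact Finset.sum_congr rfl fun x _ => by ring


theorem exists_multipliers (hs : ∀ x, s (s x) = x) (ht : ∀ x, t (t (t x)) = x) (w f : P → k)
    (h : ∀ g ∈ Z1 k s t, form t w f g = 0) :
    ∃ u b c : P → k, (∀ x, u (s x) = u x) ∧ (∀ x, b (t x) = b x) ∧ (∀ x, t x ≠ x → c x = 0) ∧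
      ∀ y, w (t (t y)) * f (t (t y)) - w y * f (t y) = u y + b y + c y := by
  have hssymm : ∀ x, s.symm x = s x := fun x => by
    rw [Equiv.symm_apply_eq, hs]
  have htsymm : ∀ x, t.symm x = t (t x) := fun x => by
    rw [Equiv.symm_apply_eq, ht]
  have hmem : formL t w f ∈ (LinearMap.ker (constr (k := k) s t)).dualAnnihilator := by
    rw [ker_constr, Submodule.mem_dualAnnihilator]
    intro g hg
    exact h g hg
  rw [← LinearMap.range_dualMap_eq_dualAnnihilator_ker] at hmem
  obtain ⟨c, hc⟩ := hmem
  set a : P ⊕ (P ⊕ P) → k := fun z => c (fun j => if z = j then 1 else 0) with ha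
  have hcv : ∀ v, c v = ∑ z, v z * a z := fun v => by
    rw [LinearMap.pi_apply_eq_sum_univ c v]
    simp only [smul_eq_mul, ha]
  have hy : ∀ y, w (t (t y)) * f (t (t y)) - w y * f (t y) =
      (a (Sum.inl y) + a (Sum.inl (s y))) +
      (a (Sum.inr (Sum.inl y)) + a (Sum.inr (Sum.inl (t (t y)))) + a (Sum.inr (Sum.inl (t y)))) +
      (if t y = y then a (Sum.inr (Sum.inr y)) else 0) := by
    intro y
    have e1 : formL t w f (Pi.single y 1) = c (constr s t (Pi.single y 1)) := by
      rw [← hc]; rfl
    rw [formL_single, htsymm, hcv, Fintype.sum_sum_type, Fintype.sum_sum_type] at e1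
    rw [e1]
    simp only [constr_inl, constr_inr_inl, constr_inr_inr]
    have s1 : ∑ x, ((Pi.single y (1 : k) : P → k) x + (Pi.single y (1 : k) : P → k) (s x)) *
        a (Sum.inl x) = a (Sum.inl y) + a (Sum.inl (s y)) := by
      simp only [add_mul, Finset.sum_add_distrib]
      have h1 := sum_single_comp (Equiv.refl P) y (fun x => a (Sum.inl x))
      have h2 := sum_single_comp s y (fun x => a (Sum.inl x))
      simp only [Equiv.refl_apply, Equiv.refl_symm] at h1
      rw [h1, h2, hssymm]
    have s2 : ∑ x, ((Pi.single y (1 : k) : P → k) x + (Pi.single y (1 : k) : P → k) (t x) +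
        (Pi.single y (1 : k) : P → k) (t (t x))) * a (Sum.inr (Sum.inl x)) =
        a (Sum.inr (Sum.inl y)) + a (Sum.inr (Sum.inl (t (t y)))) +
          a (Sum.inr (Sum.inl (t y))) := by
      simp only [add_mul, Finset.sum_add_distrib]
      have h1 := sum_single_comp (Equiv.refl P) y (fun x => a (Sum.inr (Sum.inl x)))
      have h2 := sum_single_comp t y (fun x => a (Sum.inr (Sum.inl x)))
      have h3 := sum_single_comp (t * t) y (fun x => a (Sum.inr (Sum.inl x)))
      simp only [Equiv.refl_apply, Equiv.refl_symm] at h1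
      simp only [Equiv.Perm.mul_apply] at h3
      rw [h1, h2, h3, htsymm]
      have : (t * t).symm y = t y := by
        rw [Equiv.symm_apply_eq, Equiv.Perm.mul_apply, ht]
      rw [this]
    have s3 : ∑ x, (if t x = x then (Pi.single y (1 : k) : P → k) x else 0) *
        a (Sum.inr (Sum.inr x)) = if t y = y then a (Sum.inr (Sum.inr y)) else 0 := by
      have h1 := sum_single_comp (Equiv.refl P) y
        (fun x => if t x = x then a (Sum.inr (Sum.inr x)) else 0)
      simp only [Equiv.refl_apply, Equiv.refl_symm] at h1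
      refine Eq.trans ?_ h1
      refine Finset.sum_congr rfl fun x _ => ?_
      split_ifs <;> simp
    rw [s1, s2, s3]
    ring
  refine ⟨fun y => a (Sum.inl y) + a (Sum.inl (s y)),
    fun y => a (Sum.inr (Sum.inl y)) + a (Sum.inr (Sum.inl (t (t y)))) + a (Sum.inr (Sum.inl (t y))),
    fun y => if t y = y then a (Sum.inr (Sum.inr y)) else 0, fun x => ?_, fun x => ?_,
    fun x hx => ?_, hy⟩
  · simp only [hs]; ring
  · simp only [ht]; ring
  · simp only [hx, if_false]

end Lagrange

section Main

variable {s t : Equiv.Perm P}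

/-- **radical ⊆ coboundaries.** -/
theorem mem_B1_of_forall_form_eq_zero (hs : ∀ x, s (s x) = x) (ht : ∀ x, t (t (t x)) = x)
    (h2 : (2 : k) ≠ 0) {w : P → k} (hw : ∀ x, t x ≠ x → w x + w (t x) + w (t (t x)) = 1)
    {f : P → k} (hf : f ∈ Z1 k s t) (h : ∀ g ∈ Z1 k s t, form t w f g = 0) : f ∈ B1 k s t := by
  obtain ⟨u, b, c, hu, hb, hc, hl⟩ := exists_multipliers s t hs ht w f h
  obtain ⟨hf1, hf2, hf3⟩ := hf
  have key : ∀ x, f x = u (t x) - u (t (t x)) := by
    intro x
    by_cases hx : t x = x
    · rw [hx, hx, hf3 x hx, sub_self]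
    · have h1 := hl (t x)
      have h2' := hl (t (t x))
      rw [ht x] at h1
      rw [ht (t x), ht x] at h2'
      have hc1 : c (t x) = 0 := hc _ (fun e => hx (t.injective e))
      have hc2 : c (t (t x)) = 0 := hc _ (fun e => hx (t.injective (t.injective e)))
      have hb2 : b (t (t x)) = b (t x) := hb _
      have hwx := hw x hx
      have hf2x := hf2 x
      linear_combination (-(f x)) * hwx + w (t x) * hf2x + h1 - h2' - hb2 + hc1 - hc2
  set φ : P → k := fun x => (u x - u (t x) + u (t (t x))) / 2 with hφ
  have hi : ∀ x, φ x + φ (t x) = u x := by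
    intro x
    simp only [hφ, ht]
    field_simp
    ring
  have hii : ∀ x, φ (t x) - φ x = f x := by
    intro x
    rw [key x]
    simp only [hφ, ht]
    field_simp
    ring
  have hiii : ∀ y, φ (s y) = φ (t y) := by
    intro y
    have e1 := hi (s y)
    have e2 := hi y
    have e3 := hii (s y)
    have e4 := hii y
    rw [hu] at e1
    rw [hf1] at e3
    have : (2 : k) * φ (s y) = 2 * φ (t y) := by
      linear_combination e1 - e2 - e3 - e4
    exact mul_left_cancel₀ h2 this
  refine ⟨φ, fun x => ?_, fun x => ?_⟩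
  · rw [hiii, ht]
  · rw [hiii, hii]

/-- **coboundaries ⊆ radical.** -/
theorem form_eq_zero_of_mem_B1 (hs : ∀ x, s (s x) = x) (ht : ∀ x, t (t (t x)) = x)
    {w : P → k} (hw : ∀ x, t x ≠ x → w x + w (t x) + w (t (t x)) = 1)
    {f g : P → k} (hf : f ∈ B1 k s t) (hg : g ∈ Z1 k s t) : form t w f g = 0 := by
  obtain ⟨φ, hφ, hfφ⟩ := hf
  obtain ⟨hg1, hg2, hg3⟩ := hg
  have hst : ∀ x, φ (s x) = φ (t x) := fun x => by
    have := hφ (t x)
    rwa [ht] at this
  have hft : ∀ x, f x = φ (t x) - φ x := fun x => by rw [hfφ, hst]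
  -- the local identity
  have hD : ∀ x, f x * g (t x) - f (t x) * g x =
      -(φ x * g (t x) + φ (t x) * g (t (t x)) + φ (t (t x)) * g x) := by
    intro x
    rw [hft x, hft (t x)]
    linear_combination φ (t x) * hg2 x
  -- reindexing
  have hsum : form t w f g = -∑ y, φ y * g (t y) := by
    unfold form
    simp only [hD, mul_neg, Finset.sum_neg_distrib, neg_inj, mul_add, Finset.sum_add_distrib]
    have r1 : ∑ x, w x * (φ (t x) * g (t (t x))) = ∑ y, w (t (t y)) * (φ y * g (t y)) := by
      rw [← Equiv.sum_comp t (fun y => w (t (t y)) * (φ y * g (t y)))]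
      simp only [ht]
    have r2 : ∑ x, w x * (φ (t (t x)) * g x) = ∑ y, w (t y) * (φ y * g (t y)) := by
      rw [← Equiv.sum_comp (t * t) (fun y => w (t y) * (φ y * g (t y)))]
      simp only [Equiv.Perm.mul_apply, ht]
    rw [r1, r2, ← Finset.sum_add_distrib, ← Finset.sum_add_distrib]
    refine Finset.sum_congr rfl fun y _ => ?_
    by_cases hy : t y = y
    · rw [hy, hg3 y hy]; ring
    · have := hw y hy
      linear_combination (φ y * g (t y)) * this
  rw [hsum, neg_eq_zero]
  -- telescoping around the cusps
  have hgt : ∀ y, g (t y) = - g y + g (s (t (t y))) := fun y => by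
    have := hg1 (t (t y))
    linear_combination hg2 y - this
  have : ∑ y, φ y * g (s (t (t y))) = ∑ y, φ y * g y := by
    rw [← Equiv.sum_comp (s * t * t) (fun y => φ y * g y)]
    simp only [Equiv.Perm.mul_apply, hφ]
  calc ∑ y, φ y * g (t y) = ∑ y, (-(φ y * g y) + φ y * g (s (t (t y)))) :=
        Finset.sum_congr rfl fun y _ => by rw [hgt y]; ring
    _ = 0 := by rw [Finset.sum_add_distrib, this, Finset.sum_neg_distrib, neg_add_cancel]

/-- **Combinatorial Poincare duality (radical form).** Over a field with `2 ≠ 0`, a cocycle of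
the coarse Farey complex is a coboundary iff it is orthogonal to all cocycles. -/
theorem mem_B1_iff_forall_form_eq_zero (hs : ∀ x, s (s x) = x) (ht : ∀ x, t (t (t x)) = x)
    (h2 : (2 : k) ≠ 0) {w : P → k} (hw : ∀ x, t x ≠ x → w x + w (t x) + w (t (t x)) = 1)
    {f : P → k} (hf : f ∈ Z1 k s t) :
    f ∈ B1 k s t ↔ ∀ g ∈ Z1 k s t, form t w f g = 0 :=
  ⟨fun h g hg => form_eq_zero_of_mem_B1 hs ht hw h hg,
    mem_B1_of_forall_form_eq_zero hs ht h2 hw hf⟩

/-- coboundaries are cocycles. -/
theorem B1_le_Z1 (hs : ∀ x, s (s x) = x) (ht : ∀ x, t (t (t x)) = x) : B1 k s t ≤ Z1 k s t := by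
  rintro f ⟨φ, hφ, hfφ⟩
  have hst : ∀ x, φ (s x) = φ (t x) := fun x => by
    have := hφ (t x)
    rwa [ht] at this
  refine ⟨fun x => ?_, fun x => ?_, fun x hx => ?_⟩
  · rw [hfφ, hfφ, hs]; ring
  · rw [hfφ, hfφ, hfφ, hst, hst, hst, ht]; ring
  · rw [hfφ, hst, hx, sub_self]

omit [DecidableEq P] in
/-- the form is antisymmetric (on all functions). -/
theorem form_antisymm (w f g : P → k) : form t w f g = - form t w g f := by
  unfold form
  rw [← Finset.sum_neg_distrib]
  exact Finset.sum_congr rfl fun x _ => by ring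

omit [DecidableEq P] in
theorem form_self (h2 : (2 : k) ≠ 0) (w f : P → k) : form t w f f = 0 := by
  have h := form_antisymm (t := t) w f f
  have : (2 : k) * form t w f f = 0 := by linear_combination h
  exact (mul_eq_zero.mp this).resolve_left h2

/-- on cocycles the form does not depend on the weight. -/
theorem form_congr_weight (ht : ∀ x, t (t (t x)) = x)
    {w w' : P → k} (hw : ∀ x, t x ≠ x → w x + w (t x) + w (t (t x)) = 1)
    (hw' : ∀ x, t x ≠ x → w' x + w' (t x) + w' (t (t x)) = 1)
    {f g : P → k} (hf : f ∈ Z1 k s t) (hg : g ∈ Z1 k s t) : form t w f g = form t w' f g := by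
  obtain ⟨-, hf2, hf3⟩ := hf
  obtain ⟨-, hg2, hg3⟩ := hg
  -- `D x := f x * g (t x) - f (t x) * g x` is `t`-invariant on cocycles
  have hD : ∀ x, f (t x) * g (t (t x)) - f (t (t x)) * g (t x) = f x * g (t x) - f (t x) * g x := by
    intro x
    linear_combination f (t x) * hg2 x - g (t x) * hf2 x
  have hD0 : ∀ x, t x = x → f x * g (t x) - f (t x) * g x = 0 := fun x hx => by
    rw [hx, hf3 x hx]; ring
  have hD2 : ∀ x, f (t (t x)) * g x - f x * g (t (t x)) = f x * g (t x) - f (t x) * g x := by
    intro x
    linear_combination g x * hf2 x - f x * hg2 x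
  -- in characteristic 3 the factor 3 is useless: compare termwise on orbits instead
  -- (direct argument valid in every characteristic)
  have hdiff : form t w f g - form t w' f g =
      ∑ x, (w x - w' x) * (f x * g (t x) - f (t x) * g x) := by
    unfold form
    rw [← Finset.sum_sub_distrib]
    exact Finset.sum_congr rfl fun x _ => by ring
  -- write `w - w' = d`, with `d x + d (t x) + d (t (t x)) = 0` on free orbits
  set d : P → k := fun x => w x - w' x with hd
  have hd0 : ∀ x, t x ≠ x → d x + d (t x) + d (t (t x)) = 0 := fun x hx => by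
    simp only [hd]; linear_combination hw x hx - hw' x hx
  -- potential of `d` along the orbit: `d x = e (t x) - e x` with `e x := - d x - ... `
  -- simpler: sum over x of d x * D x where D is t-invariant and vanishes at fixed points:
  -- ∑ d x D x = ∑ d (t x) D x = ∑ d (t t x) D x, hence 3 * it = 0; avoid the 3 as follows:
  -- group the sum as ∑ x (d x + d (t x) + d (t t x)) * D x * c x for another weight c.
  have hsum : ∀ c : P → k, (∀ x, t x ≠ x → c x + c (t x) + c (t (t x)) = 1) →
      ∑ x, d x * (f x * g (t x) - f (t x) * g x) = 0 := by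
    intro c hc
    -- ∑ d x D x = ∑ (c x + c (t x) + c (t t x)) d x D x  (free) and reindex each piece
    have e0 : ∑ x, d x * (f x * g (t x) - f (t x) * g x) =
        ∑ x, (c x + c (t x) + c (t (t x))) * (d x * (f x * g (t x) - f (t x) * g x)) := by
      refine Finset.sum_congr rfl fun x _ => ?_
      by_cases hx : t x = x
      · rw [hD0 x hx]; ring
      · rw [hc x hx, one_mul]
    have e1 : ∑ x, c (t x) * (d x * (f x * g (t x) - f (t x) * g x)) =
        ∑ x, c x * (d (t (t x)) * (f x * g (t x) - f (t x) * g x)) := by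
      rw [← Equiv.sum_comp (t * t) (fun x => c (t x) * (d x * (f x * g (t x) - f (t x) * g x)))]
      refine Finset.sum_congr rfl fun x _ => ?_
      simp only [Equiv.Perm.mul_apply, ht]
      rw [hD2 x]
    have e2 : ∑ x, c (t (t x)) * (d x * (f x * g (t x) - f (t x) * g x)) =
        ∑ x, c x * (d (t x) * (f x * g (t x) - f (t x) * g x)) := by
      rw [← Equiv.sum_comp t (fun x => c (t (t x)) * (d x * (f x * g (t x) - f (t x) * g x)))]
      refine Finset.sum_congr rfl fun x _ => ?_
      simp only [ht]
      rw [hD x]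
    rw [e0]
    simp only [add_mul, Finset.sum_add_distrib]
    rw [e1, e2, ← Finset.sum_add_distrib, ← Finset.sum_add_distrib]
    refine Finset.sum_eq_zero fun x _ => ?_
    by_cases hx : t x = x
    · rw [hD0 x hx]; ring
    · have := hd0 x hx
      linear_combination (c x * (f x * g (t x) - f (t x) * g x)) * this
  have := hsum w hw
  rw [← sub_eq_zero, hdiff]
  exact this

/-- the orbit relation of `t` (orbits have 1 or 3 elements). -/
def orbSetoid (t : Equiv.Perm P) (ht : ∀ x, t (t (t x)) = x) : Setoid P where
  r x y := y = x ∨ y = t x ∨ y = t (t x)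
  iseqv :=
    { refl := fun x => Or.inl rfl
      symm := by
        rintro x y (rfl | rfl | rfl)
        · exact Or.inl rfl
        · exact Or.inr (Or.inr (ht x).symm)
        · exact Or.inr (Or.inl (ht x).symm)
      trans := by
        rintro x y z (rfl | rfl | rfl) (rfl | rfl | rfl)
        · exact Or.inl rfl
        · exact Or.inr (Or.inl rfl)
        · exact Or.inr (Or.inr rfl)
        · exact Or.inr (Or.inl rfl)
        · exact Or.inr (Or.inr rfl)
        · exact Or.inl (ht x)
        · exact Or.inr (Or.inr rfl)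
        · exact Or.inl (ht x)
        · exact Or.inr (Or.inl (by rw [ht])) }

/-- a weight with total mass `1` on every free `t`-orbit exists (indicator of a set of orbit
representatives); in characteristic `≠ 3` the constant `1/3` also works. -/
theorem exists_weight (ht : ∀ x, t (t (t x)) = x) :
    ∃ w : P → k, ∀ x, t x ≠ x → w x + w (t x) + w (t (t x)) = 1 := by
  classical
  let S := orbSetoid t ht
  let r : P → P := fun x => (Quotient.mk S x).out
  have hr : ∀ x, x = r x ∨ x = t (r x) ∨ x = t (t (r x)) := fun x =>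
    Quotient.exact (Quotient.out_eq (Quotient.mk S x))
  have hrt : ∀ x, r (t x) = r x := fun x => by
    have : Quotient.mk S (t x) = Quotient.mk S x := Quotient.sound (Or.inr (Or.inr (ht x).symm))
    simp only [r, this]
  refine ⟨fun x => if r x = x then 1 else 0, fun x hx => ?_⟩
  have hx2 : t (t x) ≠ x := fun e => hx (by
    have := congrArg t e
    rw [ht] at this
    exact this.symm)
  have hx3 : t (t x) ≠ t x := fun e => hx (t.injective e)
  simp only [hrt]
  rcases hr x with h | h | h
  · rw [if_pos h.symm, if_neg (fun e => hx (by rw [← e, ← h])), if_neg (fun e => hx2 (by rw [← e, ← h]))]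
    ring
  · have h1 : r x = t (t x) := by
      have := congrArg (fun z => t (t z)) h
      simp only [ht] at this
      exact this.symm
    rw [if_neg (fun e => hx2 (by rw [← h1, e])), if_neg (fun e => hx3 (by rw [← h1, e])), if_pos h1]
    ring
  · have h1 : r x = t x := by
      have := congrArg (fun z => t z) h
      simp only [ht] at this
      exact this.symm
    rw [if_neg (fun e => hx (by rw [← h1, e])), if_pos h1, if_neg (fun e => hx3 (by rw [← e, h1]))]
    ring

end Main

end Fermat.Agent.S41.PDUnimod51
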